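import Mathlib.MeasureTheory.Covering.BesicovitchVectorSpace
import Mathlib.MeasureTheory.Covering.LiminfLimsup
import Mathlib.MeasureTheory.Measure.Lebesgue.EqHaar
import Mathlib.Tactic

/-!
# The zero-one law for simultaneous approximation

Up to null sets the set of well approximable vectors does not change with a constant factor in the
radii, so it absorbs its images under `x ↦ s x + v` for natural `s` and integral `v`; by the
density theorem of Lebesgue such a set of positive measure is full.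
-/

set_option autoImplicit false

noncomputable section

open Finset MeasureTheory Metric Filter
open scoped Topology Pointwise

namespace FA.SimultaneousKhintchine

variable {d : ℕ}

/-- The rational points with denominator `q`. -/
def grid (d q : ℕ) : Set (Fin d → ℝ) := Set.range fun (p : Fin d → ℤ) i => (p i : ℝ) / q

/-- The points within `f q` of a rational point of denominator `q` for infinitely many `q`. -/
def wellSet (d : ℕ) (f : ℕ → ℝ) : Set (Fin d → ℝ) :=
  {x | {q : ℕ | 0 < q ∧ ∃ p : Fin d → ℤ, ∀ i, |x i - (p i : ℝ) / q| ≤ f q}.Infinite}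

theorem measurableSet_wellSet (f : ℕ → ℝ) : MeasurableSet (wellSet d f) := by
  have e : wellSet d f = ⋂ R : ℕ, ⋃ q : ℕ, ⋃ (_ : R < q), ⋃ p : Fin d → ℤ,
      {x : Fin d → ℝ | ∀ i, |x i - (p i : ℝ) / q| ≤ f q} := by
    ext x
    simp only [wellSet, Set.mem_ofPred_eq, Set.mem_iInter, Set.mem_iUnion, exists_prop]
    refine ⟨fun h R => ?_, fun h => Set.infinite_of_forall_exists_gt fun R => ?_⟩
    · obtain ⟨q, hq, hRq⟩ := h.exists_gt R
      exact ⟨q, hRq, hq.2⟩
    · obtain ⟨q, hRq, hq⟩ := h R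
      exact ⟨q, ⟨by omega, hq⟩, hRq⟩
  rw [e]
  refine MeasurableSet.iInter fun R => MeasurableSet.iUnion fun q => MeasurableSet.iUnion fun _ =>
    MeasurableSet.iUnion fun p => ?_
  rw [Set.ofPred_forall]
  exact (isClosed_iInter fun i => isClosed_le (by fun_prop) continuous_const).measurableSet

theorem wellSet_ae_le {f : ℕ → ℝ} (hf : ∀ q, 0 < q → 0 < f q)
    (hlim : Tendsto f atTop (𝓝 0)) {s : ℝ} (hs : 0 < s) :
    (wellSet d fun q => s * f q) ≤ᵐ[(volume : Measure (Fin d → ℝ))] wellSet d f := by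
  have h1 := blimsup_cthickening_mul_ae_eq (volume : Measure (Fin d → ℝ)) (fun q => 0 < q)
    (grid d) (show 0 < 2 * s by positivity) (fun q => f q / 2) (by simpa using hlim.div_const 2)
  rw [show (fun q : ℕ => cthickening (2 * s * (f q / 2)) (grid d q)) =
    fun q => cthickening (s * f q) (grid d q) from funext fun q => by ring_nf] at h1
  refine EventuallyLE.trans (LE.le.eventuallyLE fun x hx => ?_)
    (h1.le.trans (LE.le.eventuallyLE fun x hx => ?_))
  · rw [← Nat.cofinite_eq_atTop, cofinite.blimsup_set_eq]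
    refine Set.Infinite.mono (fun q hq => ?_) hx
    obtain ⟨hq0, p, hp⟩ := hq
    refine ⟨hq0, mem_cthickening_of_dist_le x _ _ _ ⟨p, rfl⟩ ?_⟩
    rw [dist_pi_le_iff (mul_pos hs (hf q hq0)).le]
    exact fun i => by rw [Real.dist_eq]; exact hp i
  · rw [← Nat.cofinite_eq_atTop, cofinite.blimsup_set_eq] at hx
    refine Set.Infinite.mono (fun q hq => ?_) hx
    obtain ⟨hq0, hq⟩ := hq
    obtain ⟨z, ⟨p, rfl⟩, hz⟩ := mem_thickening_iff.1
      (cthickening_subset_thickening' (hf q hq0) (half_lt_self (hf q hq0)) (grid d q) hq)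
    exact ⟨hq0, p, fun i => by
      rw [← Real.dist_eq]
      exact (dist_le_pi_dist x _ i).trans hz.le⟩

theorem smul_add_mem_wellSet {f : ℕ → ℝ} {x : Fin d → ℝ} (hx : x ∈ wellSet d f) (s : ℕ)
    (v : Fin d → ℤ) :
    (s : ℝ) • x + (fun i => (v i : ℝ)) ∈ wellSet d fun q => (s : ℝ) * f q := by
  refine Set.Infinite.mono (fun q hq => ?_) hx
  obtain ⟨hq0, p, hp⟩ := hq
  refine ⟨hq0, fun i => s * p i + v i * q, fun i => ?_⟩
  have e : ((s : ℝ) • x + fun i => (v i : ℝ)) i - (((s : ℤ) * p i + v i * q : ℤ) : ℝ) / q =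
      (s : ℝ) * (x i - (p i : ℝ) / q) := by
    have : (q : ℝ) ≠ 0 := Nat.cast_ne_zero.2 hq0.ne'
    simp only [Pi.add_apply, Pi.smul_apply, smul_eq_mul]
    push_cast
    field_simp
    ring
  rw [e, abs_mul, Nat.abs_cast]
  exact mul_le_mul_of_nonneg_left (hp i) (Nat.cast_nonneg s)

/-- **The zero-one law.** -/
theorem ae_mem_wellSet {f : ℕ → ℝ} (hf : ∀ q, 0 < q → 0 < f q) (hlim : Tendsto f atTop (𝓝 0))
    (hpos : 0 < (volume : Measure (Fin d → ℝ)) (wellSet d f)) :
    ∀ᵐ x : Fin d → ℝ, x ∈ wellSet d f := by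
  set U := wellSet d f with hU
  have hUm : MeasurableSet U := measurableSet_wellSet f
  set μ : Measure (Fin d → ℝ) := volume with hμ
  obtain ⟨x₀, hx₀⟩ : ∃ x₀ : Fin d → ℝ,
      Tendsto (fun r => μ (U ∩ closedBall x₀ r) / μ (closedBall x₀ r)) (𝓝[>] 0) (𝓝 1) := by
    have hne : (ae (μ.restrict U)).NeBot := ae_neBot.2 fun h => by
      rw [Measure.restrict_eq_zero] at h
      exact hpos.ne' h
    exact (Besicovitch.ae_tendsto_measure_inter_div μ U).exists
  have hball : ∀ (c : Fin d → ℝ) (r : ℝ), 0 ≤ r → μ.real (closedBall c r) = (2 * r) ^ d :=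
    fun c r hr => by
      rw [Measure.real, hμ, Real.volume_pi_closedBall c hr, ENNReal.toReal_ofReal (by positivity),
        Fintype.card_fin]
  have hfin : ∀ (c : Fin d → ℝ) (r : ℝ) (A : Set (Fin d → ℝ)), μ (A ∩ closedBall c r) ≠ ⊤ :=
    fun c r A => ne_top_of_le_ne_top (measure_closedBall_lt_top (μ := μ)).ne
      (measure_mono Set.inter_subset_right)
  have hcube : ∀ (z : Fin d → ℤ) (s : ℕ), 0 < s →
      μ.real (Set.univ.pi (fun i => Set.Ico (z i : ℝ) (z i + 1)) \ U) ≤
        2 ^ d - (s : ℝ) ^ d * μ.real (U ∩ closedBall x₀ (1 / s)) := by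
    intro z s hs
    have hsR : (0 : ℝ) < s := Nat.cast_pos.2 hs
    set v : Fin d → ℤ := fun i => z i - ⌊(s : ℝ) * x₀ i⌋ with hv
    set c : Fin d → ℝ := (s : ℝ) • x₀ + fun i => (v i : ℝ) with hc
    have hci : ∀ i, c i = (z i : ℝ) + Int.fract ((s : ℝ) * x₀ i) := fun i => by
      simp only [hc, hv, Pi.add_apply, Pi.smul_apply, smul_eq_mul, Int.fract, Int.cast_sub]
      ring
    have hsub : Set.univ.pi (fun i => Set.Ico (z i : ℝ) (z i + 1)) ⊆ closedBall c 1 := by
      intro y hy
      rw [mem_closedBall, dist_pi_le_iff zero_le_one]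
      intro i
      have h1 := hy i trivial
      rw [Real.dist_eq, hci, abs_le]
      exact ⟨by linarith [h1.1, Int.fract_lt_one ((s : ℝ) * x₀ i)],
        by linarith [h1.2, Int.fract_nonneg ((s : ℝ) * x₀ i)]⟩
    set X := (wellSet d fun q => (s : ℝ) * f q) ∩ closedBall c 1 with hX
    have hpre : U ∩ closedBall x₀ (1 / s) ⊆
        (fun y : Fin d → ℝ => (s : ℝ) • y) ⁻¹' ((fun y => y + fun i => (v i : ℝ)) ⁻¹' X) := by
      rintro y ⟨hyU, hyB⟩
      refine ⟨smul_add_mem_wellSet hyU s v, ?_⟩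
      rw [mem_closedBall] at hyB ⊢
      rw [hc, dist_add_right, dist_smul₀, Real.norm_eq_abs, abs_of_pos hsR]
      calc (s : ℝ) * dist y x₀ ≤ s * (1 / s) := mul_le_mul_of_nonneg_left hyB hsR.le
        _ = 1 := by field_simp
    have h1 : μ (U ∩ closedBall x₀ (1 / s)) ≤
        ENNReal.ofReal (((s : ℝ) ^ d)⁻¹) * μ (U ∩ closedBall c 1) := by
      refine (measure_mono hpre).trans ?_
      rw [Measure.addHaar_preimage_smul μ hsR.ne', measure_preimage_add_right, Module.finrank_pi,
        Fintype.card_fin, abs_of_pos (by positivity)]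
      refine mul_le_mul' le_rfl (measure_mono_ae ?_)
      exact EventuallyLE.inter (wellSet_ae_le hf hlim hsR) EventuallyLE.rfl
    have h2 : (s : ℝ) ^ d * μ.real (U ∩ closedBall x₀ (1 / s)) ≤ μ.real (U ∩ closedBall c 1) := by
      have h3 := ENNReal.toReal_mono (ENNReal.mul_ne_top ENNReal.ofReal_ne_top (hfin c 1 U)) h1
      rw [ENNReal.toReal_mul, ENNReal.toReal_ofReal (by positivity)] at h3
      rw [← le_inv_mul_iff₀ (by positivity)]
      exact h3
    have h4 : μ.real (closedBall c 1 ∩ U) + μ.real (closedBall c 1 \ U) = 2 ^ d := by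
      rw [measureReal_inter_add_sdiff hUm (measure_closedBall_lt_top (μ := μ)).ne,
        hball c 1 zero_le_one, mul_one]
    have h5 : μ.real (Set.univ.pi (fun i => Set.Ico (z i : ℝ) (z i + 1)) \ U) ≤
        μ.real (closedBall c 1 \ U) := measureReal_mono (Set.sdiff_subset_sdiff_left hsub)
      (ne_top_of_le_ne_top (measure_closedBall_lt_top (μ := μ)).ne
        (measure_mono Set.sdiff_subset))
    rw [Set.inter_comm] at h4
    linarith
  have hlim' : Tendsto (fun s : ℕ => 2 ^ d - (s : ℝ) ^ d * μ.real (U ∩ closedBall x₀ (1 / s)))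
      atTop (𝓝 0) := by
    have hs0 : Tendsto (fun s : ℕ => (1 : ℝ) / s) atTop (𝓝[>] 0) :=
      tendsto_nhdsWithin_iff.2 ⟨tendsto_const_div_atTop_nhds_zero_nat 1, by
        filter_upwards [eventually_gt_atTop 0] with s hs
        exact one_div_pos.2 (Nat.cast_pos.2 hs : (0 : ℝ) < s)⟩
    have ht := ((ENNReal.tendsto_toReal ENNReal.one_ne_top).comp (hx₀.comp hs0)).const_mul
      ((2 : ℝ) ^ d)
    rw [ENNReal.toReal_one, mul_one] at ht
    have hfun := (tendsto_const_nhds (x := (2 : ℝ) ^ d) (f := atTop (α := ℕ))).sub ht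
    rw [sub_self] at hfun
    refine hfun.congr' ?_
    filter_upwards [eventually_gt_atTop 0] with s hs
    have hsR : (0 : ℝ) < s := Nat.cast_pos.2 hs
    simp only [Function.comp_apply, ENNReal.toReal_div]
    rw [← Measure.real, ← Measure.real, hball _ _ (by positivity), mul_pow, div_pow, one_pow]
    field_simp
  have hz : ∀ z : Fin d → ℤ, μ (Set.univ.pi (fun i => Set.Ico (z i : ℝ) (z i + 1)) \ U) = 0 := by
    intro z
    have h0 := ge_of_tendsto hlim' (eventually_gt_atTop 0 |>.mono fun s hs => hcube z s hs)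
    refine (measureReal_eq_zero_iff ?_).1 (le_antisymm h0 measureReal_nonneg)
    refine ne_top_of_le_ne_top ?_ (measure_mono Set.sdiff_subset)
    rw [hμ, volume_pi_pi]
    simp
  refine ae_iff.2 (measure_mono_null (fun x hx => ?_) (measure_iUnion_null hz))
  exact Set.mem_iUnion.2 ⟨fun i => ⌊x i⌋, fun i _ =>
    ⟨Int.floor_le _, Int.lt_floor_add_one _⟩, hx⟩

end FA.SimultaneousKhintchine
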