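import Fermat.Agent.SimultaneousKhintchine.Positive
import Fermat.Agent.SimultaneousKhintchine.ZeroOne

/-!
# Khintchine's theorem on simultaneous approximation

Divergence from the positive measure and the zero-one law, convergence from the lemma of Borel and
Cantelli.
-/

set_option autoImplicit false

noncomputable section

open Finset MeasureTheory Metric Filter
open scoped Topology

namespace FA.SimultaneousKhintchine

open FA.KhintchineGroshev

variable {d : ℕ}

theorem mem_wellSet_of_mem_limsup {g : ℕ → ℝ} {x : Fin d → ℝ}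
    (hx : (fun i => (x i : UnitAddCircle)) ∈ limsup (dsBox d g) atTop) :
    x ∈ wellSet d fun q => g q / q := by
  rw [← Nat.cofinite_eq_atTop, cofinite.limsup_set_eq] at hx
  refine Set.Infinite.mono (fun q hq => ?_) (hx.sdiff (Set.finite_singleton 0))
  obtain ⟨hq, hq0⟩ := hq
  refine ⟨Nat.pos_of_ne_zero hq0, ?_⟩
  have h : ∀ i, ∃ p : ℤ, |x i - (p : ℝ) / q| ≤ g q / q := fun i => by
    have hi := hq i trivial
    simp only [Khintchine.dsSet, Set.mem_iUnion, mem_ball, dist_eq_norm, Khintchine.frac,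
      ← AddCircle.coe_sub, AddCircle.norm_eq] at hi
    obtain ⟨a, -, ha⟩ := hi
    simp only [inv_one, one_mul, mul_one] at ha
    refine ⟨a + round (x i - (a : ℝ) / q) * q, le_of_eq_of_le (congrArg abs ?_) ha.le⟩
    have : (q : ℝ) ≠ 0 := Nat.cast_ne_zero.2 hq0
    push_cast
    field_simp
    ring
  choose p hp using h
  exact ⟨p, hp⟩

theorem wellSet_pos {g : ℕ → ℝ} (h : 0 < (volume : Measure (Torus d)) (limsup (dsBox d g) atTop)) :
    0 < (volume : Measure (Fin d → ℝ)) (wellSet d fun q => g q / q) := by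
  have hmp : MeasurePreserving (fun (x : Fin d → ℝ) i => (x i : UnitAddCircle))
      (Measure.pi fun _ : Fin d => (volume : Measure ℝ).restrict (Set.Ioc (0 : ℝ) (0 + 1)))
      (volume : Measure (Torus d)) :=
    measurePreserving_pi _ _ fun _ => UnitAddCircle.measurePreserving_mk 0
  rw [← hmp.measure_preimage
    (MeasurableSet.measurableSet_limsup fun q => measurableSet_dsBox g q).nullMeasurableSet,
    ← Measure.restrict_pi_pi] at h
  refine h.trans_le ((Measure.restrict_apply_le _ _).trans ?_)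
  rw [← volume_pi]
  exact measure_mono fun x hx => mem_wellSet_of_mem_limsup hx

/-- **Khintchine**, divergence. -/
theorem ae_infinite_of_divergence {ψ : ℕ → ℝ} (h0 : ∀ q, 0 ≤ ψ q)
    (hmono : ∀ q r, 1 ≤ q → q ≤ r → ψ r ≤ ψ q) (hdiv : ¬Summable fun q => ψ q ^ d) :
    ∀ᵐ x : Fin d → ℝ, {q : ℕ | 0 < q ∧
      ∃ p : Fin d → ℤ, ∀ i, |(q : ℝ) * x i - p i| < ψ q}.Infinite := by
  rcases Nat.eq_zero_or_pos d with hd | hd
  · subst hd
    exact Eventually.of_forall fun x => (Set.Ioi_infinite 0).mono fun q hq =>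
      ⟨hq, fun i => i.elim0, fun i => i.elim0⟩
  have hψpos : ∀ q, 1 ≤ q → 0 < ψ q := fun q hq => (h0 q).lt_of_ne fun hq0 => hdiv <|
    summable_of_ne_finset_zero (s := range q) fun r hr => by
      rw [mem_range, not_lt] at hr
      rw [le_antisymm ((hmono q r hq hr).trans hq0.symm.le) (h0 r), zero_pow hd.ne']
  set g : ℕ → ℝ := fun q => min (ψ q) (1 / 2) / 2 with hg
  have hg0 : ∀ q, 0 ≤ g q := fun q => div_nonneg (le_min (h0 q) (by norm_num)) two_pos.le
  have hg1 : ∀ q, g q ≤ 1 / 2 := fun q => by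
    have := min_le_right (ψ q) (1 / 2)
    simp only [hg]
    linarith
  have hgm : ∀ q, 1 ≤ q → g (q + 1) ≤ g q := fun q hq =>
    div_le_div_of_nonneg_right (min_le_min (hmono q _ hq (Nat.le_succ q)) le_rfl) two_pos.le
  have hgd : ¬Summable fun q => g q ^ d := fun hs => hdiv <| by
    refine Summable.of_norm_bounded_eventually (hs.mul_left (2 ^ d)) ?_
    rw [Nat.cofinite_eq_atTop]
    filter_upwards [hs.tendsto_atTop_zero.eventually_lt_const
      (show (0 : ℝ) < (1 / 4) ^ d by positivity)] with q hq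
    have hgq : g q < 1 / 4 := lt_of_pow_lt_pow_left₀ d (by norm_num) hq
    simp only [hg] at hgq ⊢
    rw [Real.norm_eq_abs, abs_of_nonneg (pow_nonneg (h0 q) d), ← mul_pow]
    refine pow_le_pow_left₀ (h0 q) ?_ d
    rcases le_total (ψ q) (1 / 2) with h | h
    · rw [min_eq_left h]
      linarith
    · rw [min_eq_right h] at hgq
      norm_num at hgq
  have hf : ∀ q, 0 < q → 0 < g q / q := fun q hq =>
    div_pos (div_pos (lt_min (hψpos q hq) (by norm_num)) two_pos) (Nat.cast_pos.2 hq)
  have hlim : Tendsto (fun q => g q / (q : ℝ)) atTop (𝓝 0) :=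
    squeeze_zero (fun q => div_nonneg (hg0 q) (Nat.cast_nonneg q))
      (fun q => div_le_div_of_nonneg_right (hg1 q) (Nat.cast_nonneg q))
      (tendsto_const_div_atTop_nhds_zero_nat _)
  filter_upwards [ae_mem_wellSet hf hlim (wellSet_pos (limsup_dsBox_pos hg0 hg1 hgm hgd))]
    with x hx
  refine Set.Infinite.mono (fun q hq => ?_) hx
  obtain ⟨hq0, p, hp⟩ := hq
  refine ⟨hq0, p, fun i => ?_⟩
  have hqR : (0 : ℝ) < q := Nat.cast_pos.2 hq0
  calc |(q : ℝ) * x i - p i| = (q : ℝ) * |x i - (p i : ℝ) / q| := by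
        rw [← abs_of_pos hqR, ← abs_mul, abs_of_pos hqR, mul_sub, mul_div_cancel₀ _ hqR.ne']
    _ ≤ (q : ℝ) * (g q / q) := mul_le_mul_of_nonneg_left (hp i) hqR.le
    _ = g q := by field_simp
    _ < ψ q := lt_of_lt_of_le (half_lt_self (lt_min (hψpos q hq0) (by norm_num)))
        (min_le_left _ _)

/-- **Khintchine**, convergence. -/
theorem ae_finite_of_convergence {ψ : ℕ → ℝ} (h0 : ∀ q, 0 ≤ ψ q)
    (hs : Summable fun q => ψ q ^ d) :
    ∀ᵐ x : Fin d → ℝ, {q : ℕ | 0 < q ∧
      ∃ p : Fin d → ℤ, ∀ i, |(q : ℝ) * x i - p i| < ψ q}.Finite := by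
  set E : ℕ → Set (Torus d) := fun q =>
    if q = 0 then ∅ else
      Set.univ.pi fun _ => (fun y : UnitAddCircle => (q : ℤ) • y) ⁻¹' ball 0 (ψ q)
    with hE
  have hμ : ∀ q, (volume : Measure (Torus d)) (E q) ≤ ENNReal.ofReal ((2 * ψ q) ^ d) := fun q => by
    rcases eq_or_ne q 0 with rfl | hq
    · simp [hE]
    simp only [hE, if_neg hq]
    rw [volume_pi, Measure.pi_pi, prod_const, card_univ, Fintype.card_fin,
      ENNReal.ofReal_pow (mul_nonneg two_pos.le (h0 q))]
    refine pow_le_pow_left₀ zero_le ?_ d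
    have hmp : MeasurePreserving (fun y : UnitAddCircle => (q : ℤ) • y) volume volume :=
      Measure.measurePreserving_zsmul _ (Int.natCast_ne_zero.2 hq)
    rw [hmp.measure_preimage measurableSet_ball.nullMeasurableSet]
    refine (measure_mono ball_subset_closedBall).trans ?_
    rw [AddCircle.volume_closedBall]
    exact ENNReal.ofReal_le_ofReal (min_le_right _ _)
  have hsum : ∑' q, (volume : Measure (Torus d)) (E q) ≠ ⊤ := by
    refine ne_top_of_le_ne_top ?_ (ENNReal.tsum_le_tsum hμ)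
    rw [← ENNReal.ofReal_tsum_of_nonneg (fun q => by have := h0 q; positivity)]
    · exact ENNReal.ofReal_ne_top
    · simpa only [mul_pow] using hs.mul_left ((2 : ℝ) ^ d)
  have hbc : ∀ᵐ y : Torus d, {q | y ∈ E q}.Finite := by
    have h := measure_limsup_cofinite_eq_zero hsum
    rw [← compl_mem_ae_iff] at h
    filter_upwards [h] with y hy
    rw [Set.mem_compl_iff, mem_limsup_iff_frequently_mem, frequently_cofinite_iff_infinite] at hy
    exact Set.not_infinite.1 hy
  filter_upwards [ae_real_of_ae_torus hbc] with x hx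
  refine hx.subset ?_
  rintro q ⟨hq, p, hp⟩
  simp only [Set.mem_ofPred_eq, hE, if_neg hq.ne', Set.mem_univ_pi, Set.mem_preimage,
    mem_ball_zero_iff]
  intro i
  rw [← AddCircle.coe_zsmul, AddCircle.norm_eq, zsmul_eq_mul]
  refine lt_of_le_of_lt ?_ (hp i)
  simpa using round_le ((q : ℝ) * x i) (p i)

end FA.SimultaneousKhintchine
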