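import Fermat.Agent.Khintchine.Main
import Fermat.Agent.KhintchineGroshev.Main

/-!
# Positive measure for simultaneous approximation

The sets of points of the torus within `ψ q / q` of a vector of reduced fractions of denominator
`q` are products, so their overlaps are at most `(8 ψ q ψ r) ^ d`, and the inequality of Chung and
Erdős bounds their limit superior from below.
-/

set_option autoImplicit false

noncomputable section

open Finset MeasureTheory Metric Filter
open scoped Topology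

namespace FA.SimultaneousKhintchine

open FA.KhintchineGroshev

variable {d : ℕ}

/-- The product of the sets of Duffin and Schaeffer. -/
def dsBox (d : ℕ) (ψ : ℕ → ℝ) (q : ℕ) : Set (Torus d) :=
  Set.univ.pi fun _ => Khintchine.dsSet ψ q

theorem measurableSet_dsBox (ψ : ℕ → ℝ) (q : ℕ) : MeasurableSet (dsBox d ψ q) :=
  MeasurableSet.univ_pi fun _ => Khintchine.measurableSet_dsSet ψ q

theorem measureReal_pi_eq (s : Fin d → Set UnitAddCircle) :
    (volume : Measure (Torus d)).real (Set.univ.pi s) =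
      ∏ i, (volume : Measure UnitAddCircle).real (s i) := by
  rw [Measure.real, volume_pi, Measure.pi_pi, ENNReal.toReal_prod]
  rfl

theorem measureReal_dsBox {ψ : ℕ → ℝ} {q : ℕ} (hq : 0 < q) (h0 : 0 ≤ ψ q) (h1 : ψ q ≤ 1 / 2) :
    (volume : Measure (Torus d)).real (dsBox d ψ q) = (2 * q.totient * ψ q / q) ^ d := by
  rw [dsBox, measureReal_pi_eq, prod_const, card_univ, Fintype.card_fin,
    Khintchine.measureReal_dsSet hq h0 h1]

theorem measureReal_dsBox_inter_le {ψ : ℕ → ℝ} {q r : ℕ} (hq : 0 < q) (hr : 0 < r) (hqr : q ≠ r)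
    (hψq : 0 ≤ ψ q) (hψr : 0 ≤ ψ r) :
    (volume : Measure (Torus d)).real (dsBox d ψ q ∩ dsBox d ψ r) ≤ (8 * (ψ q * ψ r)) ^ d := by
  rw [dsBox, dsBox, ← Set.pi_inter_distrib, measureReal_pi_eq, prod_const, card_univ,
    Fintype.card_fin]
  exact pow_le_pow_left₀ measureReal_nonneg
    (Khintchine.measureReal_dsSet_inter_le hq hr hqr hψq hψr) d

theorem sum_totient_div_pow_ge (d n : ℕ) :
    (1 / 4 : ℝ) ^ d * ∑ _q ∈ Icc 1 n, (1 : ℝ) ≤ ∑ q ∈ Icc 1 n, ((q.totient : ℝ) / q) ^ d := by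
  rcases Nat.eq_zero_or_pos n with rfl | hn
  · simp
  have hnR : (0 : ℝ) < n := Nat.cast_pos.2 hn
  have h := Real.pow_arith_mean_le_arith_mean_pow (Icc 1 n) (fun _ => 1 / (n : ℝ))
    (fun q => (q.totient : ℝ) / q) (fun _ _ => by positivity)
    (by rw [sum_const, Nat.card_Icc, Nat.add_sub_cancel, nsmul_eq_mul]; field_simp)
    (fun q _ => by positivity) d
  rw [← mul_sum, ← mul_sum] at h
  have h2 : (1 / 4 : ℝ) ≤ 1 / (n : ℝ) * ∑ q ∈ Icc 1 n, (q.totient : ℝ) / q := by
    rw [one_div_mul_eq_div, le_div_iff₀ hnR]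
    linarith [Khintchine.quarter_le_sum_totient_div n]
  rw [sum_const, Nat.card_Icc, Nat.add_sub_cancel, nsmul_eq_mul, mul_one, ← le_div_iff₀ hnR]
  exact ((pow_le_pow_left₀ (by norm_num) h2 d).trans h).trans_eq (one_div_mul_eq_div _ _)

/-- **The limit superior has positive measure.** -/
theorem limsup_dsBox_pos {ψ : ℕ → ℝ} (h0 : ∀ q, 0 ≤ ψ q) (h1 : ∀ q, ψ q ≤ 1 / 2)
    (hmono : ∀ q, 1 ≤ q → ψ (q + 1) ≤ ψ q) (hdiv : ¬Summable fun q => ψ q ^ d) :
    0 < (volume : Measure (Torus d)) (limsup (dsBox d ψ) atTop) := by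
  set μ : Measure (Torus d) := volume with hμ
  set κ : ℝ := (1 / 4) ^ d with hκdef
  have hκ : 0 < κ := by positivity
  set M : ℝ := 2 ^ d + 8 ^ d with hM
  have hMpos : 0 < M := by positivity
  have hlow : ENNReal.ofReal (κ ^ 2 / (4 * M)) ≤ μ (limsup (dsBox d ψ) atTop) := by
    refine Khintchine.ofReal_le_measure_limsup (measurableSet_dsBox ψ) fun n₀ => ?_
    have hdiv' : Tendsto (fun N => ∑ q ∈ range N, ψ q ^ d) atTop atTop :=
      (not_summable_iff_tendsto_nat_atTop_of_nonneg fun q => pow_nonneg (h0 q) d).1 hdiv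
    set S₀ := ∑ q ∈ range (n₀ + 1), ψ q ^ d with hS₀
    obtain ⟨N, hbig, hN⟩ := ((hdiv'.eventually_ge_atTop (ψ 0 ^ d + max 1 (4 / κ * S₀))).and
      (eventually_ge_atTop (n₀ + 1))).exists
    set J := Ico (n₀ + 1) N with hJ
    refine ⟨J, fun q hq => le_trans (Nat.le_succ _) (mem_Ico.1 hq).1, ?_⟩
    set S := ∑ q ∈ Icc 1 (N - 1), ψ q ^ d with hS
    have hS0 : 0 ≤ S₀ := sum_nonneg fun q _ => pow_nonneg (h0 q) d
    have hSN : ∀ g : ℕ → ℝ, ∑ q ∈ range N, g q = g 0 + ∑ q ∈ Icc 1 (N - 1), g q := fun g => by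
      obtain ⟨N', rfl⟩ : ∃ N', N = N' + 1 := ⟨N - 1, by omega⟩
      rw [range_eq_Ico, sum_eq_sum_Ico_succ_bot (by omega), Nat.add_sub_cancel]
      rfl
    have hSbig : max 1 (4 / κ * S₀) ≤ S := by
      have := hSN fun q => ψ q ^ d
      linarith
    have hSpos : 0 < S := lt_of_lt_of_le (lt_max_of_lt_left one_pos) hSbig
    have hJpos : ∀ q ∈ J, 0 < q := fun q hq => by rw [hJ, mem_Ico] at hq; omega
    have hJS : ∑ q ∈ J, ψ q ^ d ≤ S := sum_le_sum_of_subset_of_nonneg
      (fun q hq => by rw [hJ, mem_Ico] at hq; exact mem_Icc.2 ⟨by omega, by omega⟩)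
      fun q _ _ => pow_nonneg (h0 q) d
    have hfirst : κ / 2 * S ≤ ∑ q ∈ J, μ.real (dsBox d ψ q) := by
      have hmain := mul_sum_le_of_partial (a := fun q => ((q.totient : ℝ) / q) ^ d)
        (b := fun _ => (1 : ℝ)) (ψ := fun q => ψ q ^ d) (fun q => pow_nonneg (h0 q) d)
        (fun q hq => pow_le_pow_left₀ (h0 _) (hmono q hq) d) (sum_totient_div_pow_ge d) (N - 1)
      simp only [one_mul, ← mul_pow, ← hκdef, ← hS] at hmain
      have hsplit : ∑ q ∈ Icc 1 (N - 1), ((q.totient : ℝ) / q * ψ q) ^ d ≤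
          S₀ + ∑ q ∈ J, ((q.totient : ℝ) / q * ψ q) ^ d := by
        have h := hSN fun q => ((q.totient : ℝ) / q * ψ q) ^ d
        rw [← sum_range_add_sum_Ico _ hN] at h
        have hle : ∑ q ∈ range (n₀ + 1), ((q.totient : ℝ) / q * ψ q) ^ d ≤ S₀ := by
          refine sum_le_sum fun q _ => pow_le_pow_left₀ (by have := h0 q; positivity)
            (mul_le_of_le_one_left (h0 q) ?_) d
          exact div_le_one_of_le₀ (Nat.cast_le.2 q.totient_le) (Nat.cast_nonneg q)
        have h00 : 0 ≤ ((Nat.totient 0 : ℝ) / (0 : ℕ) * ψ 0) ^ d := by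
          have := h0 0; positivity
        linarith
      have hcut : S₀ ≤ κ / 4 * S := by
        have := (le_max_right _ _).trans hSbig
        rw [div_mul_eq_mul_div, div_le_iff₀ hκ] at this
        linarith
      refine le_trans (b := ∑ q ∈ J, ((q.totient : ℝ) / q * ψ q) ^ d) ?_
        (sum_le_sum fun q hq =>
          ((pow_le_pow_left₀ (mul_nonneg (by positivity) (h0 q)) ?_ d).trans_eq
          (measureReal_dsBox (hJpos q hq) (h0 q) (h1 q)).symm))
      · linarith
      · rw [div_mul_eq_mul_div, mul_assoc 2, mul_div_assoc 2]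
        exact le_mul_of_one_le_left (by have := h0 q; positivity) one_le_two
    have hsecond : ∑ q ∈ J, ∑ r ∈ J, μ.real (dsBox d ψ q ∩ dsBox d ψ r) ≤ M * S ^ 2 := by
      calc ∑ q ∈ J, ∑ r ∈ J, μ.real (dsBox d ψ q ∩ dsBox d ψ r)
          ≤ ∑ q ∈ J, ∑ r ∈ J, ((if q = r then (2 * ψ q) ^ d else 0) +
              8 ^ d * (ψ q ^ d * ψ r ^ d)) := by
            refine sum_le_sum fun q hq => sum_le_sum fun r hr => ?_
            have h8 : 0 ≤ (8 : ℝ) ^ d * (ψ q ^ d * ψ r ^ d) := by
              have := h0 q; have := h0 r; positivity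
            split_ifs with h
            · subst h
              rw [Set.inter_self, hμ, measureReal_dsBox (hJpos q hq) (h0 q) (h1 q)]
              refine le_add_of_le_of_nonneg (pow_le_pow_left₀ (by have := h0 q; positivity)
                ?_ d) h8
              rw [div_le_iff₀ (Nat.cast_pos.2 (hJpos q hq)), mul_assoc 2, mul_assoc 2,
                mul_comm (ψ q)]
              exact mul_le_mul_of_nonneg_left (mul_le_mul_of_nonneg_right
                (Nat.cast_le.2 q.totient_le) (h0 q)) two_pos.le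
            · rw [zero_add, ← mul_pow (ψ q), ← mul_pow (8 : ℝ), hμ]
              exact measureReal_dsBox_inter_le (hJpos q hq) (hJpos r hr) h (h0 q) (h0 r)
        _ = 2 ^ d * ∑ q ∈ J, ψ q ^ d + 8 ^ d * ((∑ q ∈ J, ψ q ^ d) * ∑ r ∈ J, ψ r ^ d) := by
            rw [sum_mul_sum]
            simp only [sum_add_distrib, mul_sum]
            refine congrArg₂ (· + ·) (sum_congr rfl fun q hq => ?_) rfl
            rw [sum_ite_eq, if_pos hq, mul_pow]
        _ ≤ 2 ^ d * S + 8 ^ d * (S * S) := by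
            have hJ0 : 0 ≤ ∑ q ∈ J, ψ q ^ d := sum_nonneg fun q _ => pow_nonneg (h0 q) d
            gcongr
        _ ≤ _ := by
            rw [hM, add_mul, ← sq S]
            gcongr
            exact le_self_pow₀ ((le_max_left _ _).trans hSbig) two_ne_zero
    have hCE := Khintchine.sq_sum_measureReal_le (μ := μ) J (measurableSet_dsBox (d := d) ψ)
    set V := μ.real (⋃ q ∈ J, dsBox d ψ q) with hV
    have h2 : (κ / 2 * S) ^ 2 ≤ V * (M * S ^ 2) :=
      (pow_le_pow_left₀ (by positivity) hfirst 2).trans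
        (hCE.trans (mul_le_mul_of_nonneg_left hsecond measureReal_nonneg))
    rw [div_le_iff₀ (by positivity)]
    refine le_of_mul_le_mul_right ?_ (pow_pos hSpos 2)
    linarith
  exact lt_of_lt_of_le (ENNReal.ofReal_pos.2 (by positivity)) hlow

end FA.SimultaneousKhintchine
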